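import Fermat.Agent.BrunnMinkowski.Sets
import Mathlib.Analysis.Normed.Group.Pointwise
import Mathlib.Analysis.Normed.Module.Ball.Pointwise
import Mathlib.MeasureTheory.Measure.Lebesgue.EqHaar
import Mathlib.Analysis.Calculus.Deriv.Pow
import Mathlib.Analysis.Calculus.Deriv.Mul
import Mathlib.Analysis.Calculus.Deriv.Slope

/-!
# The isoperimetric inequality

The thickening of a compact set is its sum with a ball, so Brunn-Minkowski and the Bernoulli
inequality bound the growth of its volume from below; balls give equality in the limit.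
-/

set_option autoImplicit false
set_option linter.unusedSectionVars false
set_option linter.style.haveILetI false

noncomputable section

open MeasureTheory Topology Filter Metric
open scoped ENNReal Pointwise

namespace FA.BrunnMinkowski

theorem pow_add_mul_le {a b : ℝ} (ha : 0 ≤ a) (hb : 0 ≤ b) :
    ∀ m : ℕ, a ^ (m + 1) + (m + 1) * a ^ m * b ≤ (a + b) ^ (m + 1)
  | 0 => by simp
  | m + 1 => by
    have ih := pow_add_mul_le ha hb m
    have h : 0 ≤ ((m : ℝ) + 1) * a ^ m * b * b := by positivity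
    calc a ^ (m + 1 + 1) + ((m + 1 : ℕ) + 1) * a ^ (m + 1) * b
        ≤ (a ^ (m + 1) + (m + 1) * a ^ m * b) * (a + b) := by push_cast; ring_nf; ring_nf at h; linarith
      _ ≤ (a + b) ^ (m + 1) * (a + b) := mul_le_mul_of_nonneg_right ih (by positivity)
      _ = (a + b) ^ (m + 1 + 1) := (pow_succ _ _).symm

/-- The volume of the unit ball. -/
def ballVol (n : ℕ) : ℝ := volume.real (closedBall (0 : EuclideanSpace ℝ (Fin n)) 1)

theorem ballVol_pos {n : ℕ} : 0 < ballVol n :=
  ENNReal.toReal_pos (measure_closedBall_pos volume _ one_pos).ne'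
    (isCompact_closedBall _ _).measure_lt_top.ne

theorem real_closedBall {n : ℕ} (x : EuclideanSpace ℝ (Fin n)) {r : ℝ} (hr : 0 ≤ r) :
    volume.real (closedBall x r) = r ^ n * ballVol n := by
  rw [ballVol, measureReal_def, measureReal_def, Measure.addHaar_closedBall' volume x hr,
    finrank_euclideanSpace_fin, ENNReal.toReal_mul, ENNReal.toReal_ofReal (pow_nonneg hr n)]

/-- **The isoperimetric inequality.** -/
theorem isoperimetric_thickening {n : ℕ} (hn : 0 < n) {A : Set (EuclideanSpace ℝ (Fin n))}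
    (hA : IsCompact A) (hAn : A.Nonempty) {ε : ℝ} (hε : 0 ≤ ε) :
    n * ε * ballVol n ^ (1 / n : ℝ) * volume.real A ^ (((n : ℝ) - 1) / n) ≤
      volume.real (cthickening ε A) - volume.real A := by
  obtain ⟨m, rfl⟩ : ∃ m, n = m + 1 := ⟨n - 1, by omega⟩
  have hn' : (0 : ℝ) < ((m + 1 : ℕ) : ℝ) := by positivity
  set r : ℝ := 1 / ((m + 1 : ℕ) : ℝ) with hr
  have hr0 : 0 ≤ r := by positivity
  set K := closedBall (0 : EuclideanSpace ℝ (Fin (m + 1))) ε
  have hK : IsCompact K := isCompact_closedBall _ _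
  have hcth : cthickening ε A = A + K := (hA.add_closedBall_zero hε).symm
  have hbm := brunn_minkowski_euclid hn hA hK hAn ⟨0, mem_closedBall_self hε⟩
  rw [← hr] at hbm
  have hreal := ENNReal.toReal_mono
    (ENNReal.rpow_ne_top_of_nonneg hr0 (hA.add hK).measure_lt_top.ne) hbm
  rw [ENNReal.toReal_add (ENNReal.rpow_ne_top_of_nonneg hr0 hA.measure_lt_top.ne)
    (ENNReal.rpow_ne_top_of_nonneg hr0 hK.measure_lt_top.ne), ← ENNReal.toReal_rpow,
    ← ENNReal.toReal_rpow, ← ENNReal.toReal_rpow, ← measureReal_def, ← measureReal_def,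
    ← measureReal_def, real_closedBall _ hε, Real.mul_rpow (by positivity) ballVol_pos.le, hr,
    one_div, Real.pow_rpow_inv_natCast hε (by omega)] at hreal
  set a := volume.real A ^ (((m + 1 : ℕ) : ℝ))⁻¹ with ha
  set b := ballVol (m + 1) ^ (((m + 1 : ℕ) : ℝ))⁻¹ with hb
  have ha0 : 0 ≤ a := Real.rpow_nonneg measureReal_nonneg _
  have hb0 : 0 ≤ b := Real.rpow_nonneg ballVol_pos.le _
  have hpow := pow_le_pow_left₀ (add_nonneg ha0 (mul_nonneg hε hb0)) hreal (m + 1)
  rw [Real.rpow_inv_natCast_pow measureReal_nonneg (by omega)] at hpow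
  have hvA : volume.real A = a ^ (m + 1) :=
    (Real.rpow_inv_natCast_pow measureReal_nonneg (by omega)).symm
  have hexp : volume.real A ^ ((((m + 1 : ℕ) : ℝ) - 1) / ((m + 1 : ℕ) : ℝ)) = a ^ m := by
    rw [ha, ← Real.rpow_natCast, ← Real.rpow_mul measureReal_nonneg]
    congr 1
    push_cast
    field_simp
    ring
  rw [hcth, hexp, hr, one_div, ← hb, hvA]
  have := pow_add_mul_le ha0 (mul_nonneg hε hb0) m
  push_cast
  nlinarith

/-- **Balls are extremal.** -/
theorem isoperimetric_ball_limit {n : ℕ} (hn : 0 < n) (x : EuclideanSpace ℝ (Fin n)) {r : ℝ}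
    (hr : 0 ≤ r) :
    Tendsto (fun ε => (volume.real (cthickening ε (closedBall x r)) -
        volume.real (closedBall x r)) / ε) (𝓝[>] 0)
      (𝓝 (n * ballVol n ^ (1 / n : ℝ) * volume.real (closedBall x r) ^ (((n : ℝ) - 1) / n))) := by
  obtain ⟨m, rfl⟩ : ∃ m, n = m + 1 := ⟨n - 1, by omega⟩
  have hd : HasDerivAt (fun ε : ℝ => (ε + r) ^ (m + 1) * ballVol (m + 1))
      (((m + 1 : ℕ) : ℝ) * r ^ m * ballVol (m + 1)) 0 := by
    simpa using HasDerivAt.mul_const (HasDerivAt.fun_pow (HasDerivAt.add_const r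
      (hasDerivAt_id (0 : ℝ))) (m + 1)) (ballVol (m + 1))
  have hlim := hd.tendsto_slope_zero_right
  have heq : ((m + 1 : ℕ) : ℝ) * ballVol (m + 1) ^ (1 / ((m + 1 : ℕ) : ℝ)) *
      volume.real (closedBall x r) ^ ((((m + 1 : ℕ) : ℝ) - 1) / ((m + 1 : ℕ) : ℝ)) =
      ((m + 1 : ℕ) : ℝ) * r ^ m * ballVol (m + 1) := by
    rw [real_closedBall x hr, Real.mul_rpow (by positivity) ballVol_pos.le,
      ← Real.rpow_natCast r (m + 1), ← Real.rpow_mul hr,
      show ((m + 1 : ℕ) : ℝ) * ((((m + 1 : ℕ) : ℝ) - 1) / ((m + 1 : ℕ) : ℝ)) = (m : ℕ) by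
        push_cast; field_simp; ring,
      Real.rpow_natCast, mul_assoc, mul_left_comm (ballVol (m + 1) ^ _) (r ^ m),
      ← Real.rpow_add ballVol_pos,
      show 1 / ((m + 1 : ℕ) : ℝ) + (((m + 1 : ℕ) : ℝ) - 1) / ((m + 1 : ℕ) : ℝ) = 1 by
        push_cast; field_simp; ring,
      Real.rpow_one, mul_assoc]
  rw [heq]
  refine hlim.congr' ?_
  filter_upwards [self_mem_nhdsWithin] with ε (hε : 0 < ε)
  rw [cthickening_closedBall hε.le hr, real_closedBall x (by positivity), real_closedBall x hr,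
    zero_add, zero_add, smul_eq_mul, inv_mul_eq_div]

end FA.BrunnMinkowski

end
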