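import Mathlib.MeasureTheory.Measure.Lebesgue.EqHaar
import Mathlib.MeasureTheory.Measure.Regular
import Mathlib.MeasureTheory.Integral.Layercake
import Mathlib.Analysis.MeanInequalities
import Mathlib.Analysis.SpecialFunctions.Pow.Continuity

/-!
# The Prékopa-Leindler inequality on the line

Two translates of compact sets of reals lie in the sum and meet in one point, which gives the
one-dimensional Brunn-Minkowski inequality.  The layer cake formula turns it into the
Prékopa-Leindler inequality for functions normalised by their suprema, and truncation removes the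
boundedness.
-/

set_option autoImplicit false
set_option linter.unusedSectionVars false
set_option linter.style.haveILetI false

noncomputable section

open MeasureTheory Topology Filter
open scoped ENNReal NNReal Pointwise

namespace FA.BrunnMinkowski

/-- **Brunn-Minkowski on the line** for compact sets. -/
theorem volume_line_compact {K L : Set ℝ} (hK : IsCompact K) (hL : IsCompact L) (hKn : K.Nonempty)
    (hLn : L.Nonempty) : volume K + volume L ≤ volume (K + L) := by
  set a := sSup K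
  set b := sInf L
  set S := (fun x => x + b) '' K
  set T := (fun y => a + y) '' L
  have hsub : S ∪ T ⊆ K + L := by
    rintro z (⟨x, hx, rfl⟩ | ⟨y, hy, rfl⟩)
    · exact Set.add_mem_add hx (hL.sInf_mem hLn)
    · exact Set.add_mem_add (hK.sSup_mem hKn) hy
  have hinter : S ∩ T ⊆ {a + b} := by
    rintro z ⟨⟨x, hx, rfl⟩, y, hy, e⟩
    have e' : a + y = x + b := e
    have h1 : x ≤ a := le_csSup hK.bddAbove hx
    have h2 : b ≤ y := csInf_le hL.bddBelow hy
    rw [Set.mem_singleton_iff]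
    linarith
  have hT : NullMeasurableSet T volume :=
    (hL.image (continuous_const.add continuous_id)).measurableSet.nullMeasurableSet
  have hd : AEDisjoint volume S T :=
    measure_mono_null hinter Real.volume_singleton
  calc volume K + volume L = volume S + volume T := by
        simp only [S, T, Set.image_add_right, Set.image_add_left, measure_preimage_add_right,
          measure_preimage_add]
    _ = volume (S ∪ T) := (measure_union₀ hT hd).symm
    _ ≤ volume (K + L) := measure_mono hsub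

/-- Brunn-Minkowski on the line for a set containing a weighted sum. -/
theorem line_superset {A B C : Set ℝ} (hA : MeasurableSet A) (hB : MeasurableSet B)
    (hAn : A.Nonempty) (hBn : B.Nonempty) {c d : ℝ} (hc : 0 < c) (hd : 0 < d)
    (h : ∀ a ∈ A, ∀ b ∈ B, c * a + d * b ∈ C) :
    ENNReal.ofReal c * volume A + ENNReal.ofReal d * volume B ≤ volume C := by
  have key : ∀ K L : Set ℝ, IsCompact K → IsCompact L → K.Nonempty → L.Nonempty → K ⊆ A → L ⊆ B →
      ENNReal.ofReal c * volume K + ENNReal.ofReal d * volume L ≤ volume C := by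
    intro K L hK hL hKn hLn hKA hLB
    have h1 := volume_line_compact (hK.smul c) (hL.smul d) hKn.smul_set hLn.smul_set
    simp only [Measure.addHaar_smul, Module.finrank_self, pow_one, abs_of_pos hc,
      abs_of_pos hd] at h1
    refine h1.trans (measure_mono ?_)
    rintro _ ⟨_, ⟨a, ha, rfl⟩, _, ⟨b, hb, rfl⟩, rfl⟩
    exact h a (hKA ha) b (hLB hb)
  obtain ⟨a₀, ha₀⟩ := hAn
  obtain ⟨b₀, hb₀⟩ := hBn
  have good : ∀ {S : Set ℝ} {s₀ : ℝ}, s₀ ∈ S → ∀ (e : ℝ≥0∞) (K : Set ℝ),
      ∃ K', IsCompact K' ∧ K'.Nonempty ∧ K' ⊆ S ∧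
        (⨆ (_ : K ⊆ S) (_ : IsCompact K), e * volume K) ≤ e * volume K' := by
    intro S s₀ hs e K
    by_cases hK : K ⊆ S ∧ IsCompact K
    · exact ⟨K ∪ {s₀}, hK.2.union isCompact_singleton, ⟨s₀, Or.inr rfl⟩,
        Set.union_subset hK.1 (Set.singleton_subset_iff.2 hs),
        iSup₂_le fun _ _ => mul_le_mul_right (measure_mono Set.subset_union_left) e⟩
    · exact ⟨{s₀}, isCompact_singleton, Set.singleton_nonempty _, Set.singleton_subset_iff.2 hs,
        iSup₂_le fun h1 h2 => absurd ⟨h1, h2⟩ hK⟩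
  rw [hA.measure_eq_iSup_isCompact, hB.measure_eq_iSup_isCompact]
  simp only [ENNReal.mul_iSup]
  refine ENNReal.iSup_add_iSup_le fun K L => ?_
  obtain ⟨K', hK1, hK2, hK3, hK4⟩ := good ha₀ (ENNReal.ofReal c) K
  obtain ⟨L', hL1, hL2, hL3, hL4⟩ := good hb₀ (ENNReal.ofReal d) L
  exact (add_le_add hK4 hL4).trans (key K' L' hK1 hL1 hK2 hL2 hK3 hL3)

/-- The weighted inequality between geometric and arithmetic mean. -/
theorem geom_le_arith {l : ℝ} (hl0 : 0 < l) (hl1 : l < 1) (x y : ℝ≥0∞) :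
    x ^ (1 - l) * y ^ l ≤ ENNReal.ofReal (1 - l) * x + ENNReal.ofReal l * y := by
  have h1 : 0 < 1 - l := sub_pos.2 hl1
  rcases eq_or_ne x ∞ with rfl | hx
  · rw [ENNReal.mul_top (by simpa using h1), top_add]
    exact le_top
  rcases eq_or_ne y ∞ with rfl | hy
  · rw [ENNReal.mul_top (by simpa using hl0), add_top]
    exact le_top
  lift x to ℝ≥0 using hx
  lift y to ℝ≥0 using hy
  have h := NNReal.geom_mean_le_arith_mean2_weighted ⟨1 - l, h1.le⟩ ⟨l, hl0.le⟩ x y
    (NNReal.eq (show (1 - l) + l = 1 from sub_add_cancel 1 l))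
  rw [← ENNReal.coe_rpow_of_nonneg _ h1.le, ← ENNReal.coe_rpow_of_nonneg _ hl0.le,
    ENNReal.ofReal_eq_coe_nnreal h1.le, ENNReal.ofReal_eq_coe_nnreal hl0.le]
  exact_mod_cast h

/-- The layer cake formula for functions with values in `[0, 1]`. -/
theorem lintegral_eq_layers {φ : ℝ → ℝ} (hφ : Measurable φ) (h0 : ∀ x, 0 ≤ φ x) :
    ∫⁻ x, ENNReal.ofReal (φ x) = ∫⁻ t in Set.Ioi 0, volume {x | t < φ x} :=
  lintegral_eq_lintegral_meas_lt volume (Eventually.of_forall h0) hφ.aemeasurable

/-- **Prékopa-Leindler on the line**, bounded functions. -/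
theorem prekopa_line_bounded {f g h : ℝ → ℝ≥0∞} (hf : Measurable f) (hg : Measurable g)
    (hh : Measurable h) {l : ℝ} (hl0 : 0 < l) (hl1 : l < 1) {N : ℝ≥0∞} (hN : N ≠ ∞)
    (hfN : ∀ x, f x ≤ N) (hgN : ∀ x, g x ≤ N)
    (hfgh : ∀ x y, f x ^ (1 - l) * g y ^ l ≤ h ((1 - l) * x + l * y)) :
    (∫⁻ x, f x) ^ (1 - l) * (∫⁻ x, g x) ^ l ≤ ∫⁻ x, h x := by
  have h1 : 0 < 1 - l := sub_pos.2 hl1
  set a := ⨆ x, f x
  set b := ⨆ x, g x
  rcases eq_or_ne a 0 with ha0 | ha0
  · have : ∫⁻ x, f x = 0 := by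
      simp [fun x => nonpos_iff_eq_zero.1 (ha0 ▸ le_iSup f x : f x ≤ 0)]
    rw [this, ENNReal.zero_rpow_of_pos h1, zero_mul]
    exact zero_le
  rcases eq_or_ne b 0 with hb0 | hb0
  · have : ∫⁻ x, g x = 0 := by
      simp [fun x => nonpos_iff_eq_zero.1 (hb0 ▸ le_iSup g x : g x ≤ 0)]
    rw [this, ENNReal.zero_rpow_of_pos hl0, mul_zero]
    exact zero_le
  have hat : a ≠ ∞ := ne_top_of_le_ne_top hN (iSup_le hfN)
  have hbt : b ≠ ∞ := ne_top_of_le_ne_top hN (iSup_le hgN)
  set c := a ^ (1 - l) * b ^ l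
  have hc0 : c ≠ 0 := mul_ne_zero
    (ENNReal.rpow_pos (pos_iff_ne_zero.2 ha0) hat).ne' (ENNReal.rpow_pos (pos_iff_ne_zero.2 hb0) hbt).ne'
  have hct : c ≠ ∞ := ENNReal.mul_ne_top (ENNReal.rpow_ne_top_of_nonneg h1.le hat)
    (ENNReal.rpow_ne_top_of_nonneg hl0.le hbt)
  have hfa : ∀ x, f x / a ≤ 1 := fun x =>
    ENNReal.div_le_of_le_mul (by rw [one_mul]; exact le_iSup f x)
  have hgb : ∀ x, g x / b ≤ 1 := fun x =>
    ENNReal.div_le_of_le_mul (by rw [one_mul]; exact le_iSup g x)
  set φ : ℝ → ℝ := fun x => (f x / a).toReal with hφdef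
  set ψ : ℝ → ℝ := fun x => (g x / b).toReal with hψdef
  set η : ℝ → ℝ := fun x => (min (h x / c) 1).toReal with hηdef
  have hφm : Measurable φ := (hf.div_const a).ennreal_toReal
  have hψm : Measurable ψ := (hg.div_const b).ennreal_toReal
  have hηm : Measurable η := ((hh.div_const c).min measurable_const).ennreal_toReal
  have hφ0 : ∀ x, 0 ≤ φ x := fun x => ENNReal.toReal_nonneg
  have hψ0 : ∀ x, 0 ≤ ψ x := fun x => ENNReal.toReal_nonneg
  have hη0 : ∀ x, 0 ≤ η x := fun x => ENNReal.toReal_nonneg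
  have hφe : ∀ x, ENNReal.ofReal (φ x) = f x / a := fun x =>
    ENNReal.ofReal_toReal (ne_top_of_le_ne_top ENNReal.one_ne_top (hfa x))
  have hψe : ∀ x, ENNReal.ofReal (ψ x) = g x / b := fun x =>
    ENNReal.ofReal_toReal (ne_top_of_le_ne_top ENNReal.one_ne_top (hgb x))
  have hprod : ∀ x y, φ x ^ (1 - l) * ψ y ^ l ≤ η ((1 - l) * x + l * y) := fun x y => by
    simp only [hφdef, hψdef, hηdef, ENNReal.toReal_rpow, ← ENNReal.toReal_mul]
    refine ENNReal.toReal_mono (ne_top_of_le_ne_top ENNReal.one_ne_top (min_le_right _ _))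
      (le_min ?_ ?_)
    · rw [ENNReal.le_div_iff_mul_le (Or.inl hc0) (Or.inl hct), mul_mul_mul_comm,
        ← ENNReal.mul_rpow_of_nonneg _ _ h1.le, ← ENNReal.mul_rpow_of_nonneg _ _ hl0.le,
        ENNReal.div_mul_cancel ha0 hat, ENNReal.div_mul_cancel hb0 hbt]
      exact hfgh x y
    · exact mul_le_one' (ENNReal.rpow_le_one (hfa x) h1.le) (ENNReal.rpow_le_one (hgb y) hl0.le)
  have hlayer : ∀ t : ℝ, 0 < t →
      ENNReal.ofReal (1 - l) * volume {x | t < φ x} + ENNReal.ofReal l * volume {x | t < ψ x} ≤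
        volume {x | t < η x} := fun t ht => by
    rcases le_or_gt 1 t with h1t | h1t
    · have e1 : {x | t < φ x} = ∅ := Set.eq_empty_of_forall_notMem fun x hx =>
        absurd (lt_of_lt_of_le hx ((ENNReal.toReal_mono ENNReal.one_ne_top (hfa x)).trans_eq
          ENNReal.toReal_one)) (not_lt.2 h1t)
      have e2 : {x | t < ψ x} = ∅ := Set.eq_empty_of_forall_notMem fun x hx =>
        absurd (lt_of_lt_of_le hx ((ENNReal.toReal_mono ENNReal.one_ne_top (hgb x)).trans_eq
          ENNReal.toReal_one)) (not_lt.2 h1t)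
      rw [e1, e2, measure_empty, mul_zero, mul_zero, add_zero]
      exact zero_le
    · have ne : ∀ (u : ℝ → ℝ≥0∞) (s : ℝ≥0∞), s = ⨆ x, u x → s ≠ 0 → s ≠ ∞ →
          ∃ x, t < (u x / s).toReal := by
        intro u s hs h0 hst
        have hlt : ENNReal.ofReal t * s < ⨆ x, u x := by
          rw [← hs]
          conv_rhs => rw [← one_mul s]
          exact (ENNReal.mul_lt_mul_iff_left h0 hst).2
            (by rw [← ENNReal.ofReal_one, ENNReal.ofReal_lt_ofReal_iff one_pos]; exact h1t)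
        obtain ⟨x, hx⟩ := lt_iSup_iff.1 hlt
        have hne : u x / s ≠ ∞ := ne_top_of_le_ne_top ENNReal.one_ne_top
          (ENNReal.div_le_of_le_mul (by rw [one_mul, hs]; exact le_iSup u x))
        refine ⟨x, (ENNReal.ofReal_lt_iff_lt_toReal ht.le hne).1 ?_⟩
        rw [ENNReal.lt_div_iff_mul_lt (Or.inl h0) (Or.inl hst)]
        exact hx
      refine line_superset (hφm measurableSet_Ioi) (hψm measurableSet_Ioi) (ne f a rfl ha0 hat)
        (ne g b rfl hb0 hbt) h1 hl0 fun x hx y hy => ?_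
      refine lt_of_lt_of_le ?_ (hprod x y)
      have e : t = t ^ (1 - l) * t ^ l := by
        rw [← Real.rpow_add ht, sub_add_cancel, Real.rpow_one]
      rw [e]
      exact mul_lt_mul'' (Real.rpow_lt_rpow ht.le hx h1) (Real.rpow_lt_rpow ht.le hy hl0)
        (by positivity) (by positivity)
  have hmain : ENNReal.ofReal (1 - l) * (∫⁻ x, f x / a) + ENNReal.ofReal l * (∫⁻ x, g x / b) ≤
      ∫⁻ x, h x / c := by
    simp only [← hφe, ← hψe]
    rw [lintegral_eq_layers hφm hφ0, lintegral_eq_layers hψm hψ0,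
      ← lintegral_const_mul' _ _ ENNReal.ofReal_ne_top, ← lintegral_const_mul' _ _ ENNReal.ofReal_ne_top,
      ← lintegral_add_left]
    · refine le_trans (setLIntegral_mono' measurableSet_Ioi fun t ht => hlayer t ht) ?_
      rw [← lintegral_eq_layers hηm hη0]
      refine lintegral_mono fun x => ?_
      exact ENNReal.ofReal_toReal_le.trans (min_le_left _ _)
    · exact (show Antitone fun t : ℝ => volume {x | t < φ x} from fun s t hst =>
        measure_mono fun x hx => lt_of_le_of_lt hst hx).measurable.const_mul _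
  have hamgm := (geom_le_arith hl0 hl1 _ _).trans hmain
  simp only [div_eq_mul_inv] at hamgm
  rw [lintegral_mul_const' _ _ (ENNReal.inv_ne_top.2 ha0),
    lintegral_mul_const' _ _ (ENNReal.inv_ne_top.2 hb0),
    lintegral_mul_const' _ _ (ENNReal.inv_ne_top.2 hc0)] at hamgm
  simp only [← div_eq_mul_inv] at hamgm
  rw [ENNReal.le_div_iff_mul_le (Or.inl hc0) (Or.inl hct), mul_mul_mul_comm,
    ← ENNReal.mul_rpow_of_nonneg _ _ h1.le, ← ENNReal.mul_rpow_of_nonneg _ _ hl0.le,
    ENNReal.div_mul_cancel ha0 hat, ENNReal.div_mul_cancel hb0 hbt] at hamgm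
  exact hamgm

/-- **Prékopa-Leindler on the line.** -/
theorem prekopa_line {f g h : ℝ → ℝ≥0∞} (hf : Measurable f) (hg : Measurable g)
    (hh : Measurable h) {l : ℝ} (hl0 : 0 < l) (hl1 : l < 1)
    (hfgh : ∀ x y, f x ^ (1 - l) * g y ^ l ≤ h ((1 - l) * x + l * y)) :
    (∫⁻ x, f x) ^ (1 - l) * (∫⁻ x, g x) ^ l ≤ ∫⁻ x, h x := by
  have h1 : 0 < 1 - l := sub_pos.2 hl1
  rcases eq_or_ne (∫⁻ x, f x) 0 with hF | hF
  · rw [hF, ENNReal.zero_rpow_of_pos h1, zero_mul]
    exact zero_le
  rcases eq_or_ne (∫⁻ x, g x) 0 with hG | hG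
  · rw [hG, ENNReal.zero_rpow_of_pos hl0, mul_zero]
    exact zero_le
  have hlim : ∀ u : ℝ → ℝ≥0∞, Measurable u →
      Tendsto (fun k : ℕ => ∫⁻ x, min (u x) k) atTop (𝓝 (∫⁻ x, u x)) := fun u hu => by
    have hmono : Monotone fun (k : ℕ) x => min (u x) (k : ℝ≥0∞) := fun i j hij x =>
      min_le_min le_rfl (Nat.cast_le.2 hij)
    have h := tendsto_atTop_iSup (f := fun k : ℕ => ∫⁻ x, min (u x) k) fun i j hij =>
      lintegral_mono (hmono hij)
    rwa [← lintegral_iSup (fun k => hu.min measurable_const) hmono,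
      show (fun x => ⨆ k : ℕ, min (u x) (k : ℝ≥0∞)) = u from funext fun x => by
        refine le_antisymm (iSup_le fun k => min_le_left _ _) ?_
        rcases eq_or_ne (u x) ∞ with e | e
        · simp [e, ENNReal.iSup_natCast]
        · obtain ⟨k, hk⟩ := ENNReal.exists_nat_gt e
          exact le_iSup_of_le k (le_min le_rfl hk.le)] at h
  refine le_of_tendsto' (ENNReal.Tendsto.mul
    ((ENNReal.continuous_rpow_const.tendsto _).comp (hlim f hf)) ?_
    ((ENNReal.continuous_rpow_const.tendsto _).comp (hlim g hg)) ?_) fun k => ?_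
  · left
    exact fun e => hF ((ENNReal.rpow_eq_zero_iff_of_pos h1).1 e)
  · left
    exact fun e => hG ((ENNReal.rpow_eq_zero_iff_of_pos hl0).1 e)
  · exact prekopa_line_bounded (hf.min measurable_const) (hg.min measurable_const) hh hl0 hl1
      (ENNReal.natCast_ne_top k) (fun x => min_le_right _ _) (fun x => min_le_right _ _)
      fun x y => le_trans (mul_le_mul' (ENNReal.rpow_le_rpow (min_le_left _ _) h1.le)
        (ENNReal.rpow_le_rpow (min_le_left _ _) hl0.le)) (hfgh x y)

end FA.BrunnMinkowski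

end
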