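import Fermat.Agent.BrunnMinkowski.Line
import Mathlib.MeasureTheory.Constructions.Pi
import Mathlib.MeasureTheory.Measure.Lebesgue.Basic

/-!
# The Prékopa-Leindler inequality in every dimension

Induction on the dimension: the sections satisfy the hypothesis one dimension lower, so their
integrals satisfy the hypothesis on the line.
-/

set_option autoImplicit false
set_option linter.unusedSectionVars false

noncomputable section

open MeasureTheory Topology Filter
open scoped ENNReal

namespace FA.BrunnMinkowski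

/-- **The Prékopa-Leindler inequality.** -/
theorem prekopa_pi {l : ℝ} (hl0 : 0 < l) (hl1 : l < 1) :
    ∀ (n : ℕ) (f g h : (Fin n → ℝ) → ℝ≥0∞), Measurable f → Measurable g → Measurable h →
      (∀ x y, f x ^ (1 - l) * g y ^ l ≤ h ((1 - l) • x + l • y)) →
      (∫⁻ x, f x) ^ (1 - l) * (∫⁻ x, g x) ^ l ≤ ∫⁻ x, h x := by
  intro n
  induction n with
  | zero =>
    intro f g h hf hg hh hfgh
    have h1 : (volume : Measure (Fin 0 → ℝ)) Set.univ = 1 := by simp [volume_pi]
    simp only [lintegral_unique, h1, mul_one]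
    refine (le_of_eq ?_).trans ((hfgh 0 0).trans (le_of_eq (congrArg h (Subsingleton.elim _ _))))
    exact congrArg₂ (fun a b => f a ^ (1 - l) * g b ^ l) (Subsingleton.elim _ _)
      (Subsingleton.elim _ _)
  | succ n ih =>
    intro f g h hf hg hh hfgh
    set e := MeasurableEquiv.piFinSuccAbove (fun _ : Fin (n + 1) => ℝ) 0
    have hmp := (volume_preserving_piFinSuccAbove (fun _ : Fin (n + 1) => ℝ) 0).symm
    have hfub : ∀ u : (Fin (n + 1) → ℝ) → ℝ≥0∞, Measurable u →
        ∫⁻ x, u x = ∫⁻ s : ℝ, ∫⁻ v : Fin n → ℝ, u (e.symm (s, v)) := fun u hu => by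
      rw [← hmp.lintegral_comp hu]
      exact lintegral_prod _ (hu.comp e.symm.measurable).aemeasurable
    have hsec : ∀ u : (Fin (n + 1) → ℝ) → ℝ≥0∞, Measurable u →
        Measurable fun s : ℝ => ∫⁻ v : Fin n → ℝ, u (e.symm (s, v)) := fun u hu =>
      (hu.comp e.symm.measurable).lintegral_prod_right'
    rw [hfub f hf, hfub g hg, hfub h hh]
    refine prekopa_line (hsec f hf) (hsec g hg) (hsec h hh) hl0 hl1 fun s t => ?_
    refine ih (fun v => f (e.symm (s, v))) (fun v => g (e.symm (t, v)))
      (fun v => h (e.symm ((1 - l) * s + l * t, v)))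
      (hf.comp (e.symm.measurable.comp measurable_prodMk_left))
      (hg.comp (e.symm.measurable.comp measurable_prodMk_left))
      (hh.comp (e.symm.measurable.comp measurable_prodMk_left)) fun v w => ?_
    refine (hfgh (e.symm (s, v)) (e.symm (t, w))).trans (le_of_eq (congrArg h ?_))
    funext i
    induction i using Fin.cases with
    | zero => simp [e]
    | succ j => simp [e]

/-- **Marginals of log-concave functions are log-concave.** -/
theorem marginal_pi {E : Type*} [AddCommGroup E] [Module ℝ E] [MeasurableSpace E] {n : ℕ}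
    {f : E × (Fin n → ℝ) → ℝ≥0∞} (hf : Measurable f) {l : ℝ} (hl0 : 0 < l) (hl1 : l < 1)
    (hlc : ∀ p q, f p ^ (1 - l) * f q ^ l ≤ f ((1 - l) • p + l • q)) (x y : E) :
    (∫⁻ v, f (x, v)) ^ (1 - l) * (∫⁻ v, f (y, v)) ^ l ≤
      ∫⁻ v, f ((1 - l) • x + l • y, v) :=
  prekopa_pi hl0 hl1 n _ _ _ (hf.comp measurable_prodMk_left) (hf.comp measurable_prodMk_left)
    (hf.comp measurable_prodMk_left) fun v w => hlc (x, v) (y, w)

end FA.BrunnMinkowski

end
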