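import Fermat.Agent.BrunnMinkowski.Prekopa
import Mathlib.MeasureTheory.Measure.Haar.InnerProductSpace
import Mathlib.MeasureTheory.Group.Arithmetic

/-!
# The Brunn-Minkowski inequality

Prékopa-Leindler for indicators gives the multiplicative form; rescaling both sets to volume `1`
gives the additive one. For the sums no measurability is assumed, the outer measure is used.
-/

set_option autoImplicit false
set_option linter.unusedSectionVars false

noncomputable section

open MeasureTheory Topology Filter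
open scoped ENNReal Pointwise

namespace FA.BrunnMinkowski

variable {n : ℕ}

/-- **Multiplicative Brunn-Minkowski inequality.** -/
theorem volume_geom_mean_le {A B C : Set (Fin n → ℝ)} (hA : MeasurableSet A) (hB : MeasurableSet B)
    {l : ℝ} (hl0 : 0 < l) (hl1 : l < 1) (h : ∀ a ∈ A, ∀ b ∈ B, (1 - l) • a + l • b ∈ C) :
    volume A ^ (1 - l) * volume B ^ l ≤ volume C := by
  have h1 : 0 < 1 - l := sub_pos.2 hl1
  have hkey : ∀ x y, A.indicator 1 x ^ (1 - l) * B.indicator 1 y ^ l ≤
      (toMeasurable volume C).indicator (1 : (Fin n → ℝ) → ℝ≥0∞) ((1 - l) • x + l • y) :=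
    fun x y => by
    by_cases hx : x ∈ A
    · by_cases hy : y ∈ B
      · simp [hx, hy, subset_toMeasurable volume C (h x hx y hy)]
      · simp [hy, ENNReal.zero_rpow_of_pos hl0]
    · simp [hx, ENNReal.zero_rpow_of_pos h1]
  have hC := measurableSet_toMeasurable volume C
  have := prekopa_pi hl0 hl1 n _ _ _ (measurable_one.indicator hA) (measurable_one.indicator hB)
    (measurable_one.indicator hC) hkey
  rwa [lintegral_indicator_one hA, lintegral_indicator_one hB, lintegral_indicator_one hC,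
    measure_toMeasurable] at this

theorem volume_le_add_left {A B : Set (Fin n → ℝ)} (hA : A.Nonempty) :
    volume B ≤ volume (A + B) := by
  obtain ⟨a, ha⟩ := hA
  calc volume B = volume ((fun x => a + x) '' B) := by
        rw [Set.image_add_left, measure_preimage_add]
    _ ≤ volume (A + B) := measure_mono (by
        rintro _ ⟨b, hb, rfl⟩
        exact Set.add_mem_add ha hb)

/-- **The Brunn-Minkowski inequality.** -/
theorem brunn_minkowski_pi (hn : 0 < n) {A B : Set (Fin n → ℝ)} (hA : MeasurableSet A)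
    (hB : MeasurableSet B) (hAn : A.Nonempty) (hBn : B.Nonempty) :
    volume A ^ (1 / n : ℝ) + volume B ^ (1 / n : ℝ) ≤ volume (A + B) ^ (1 / n : ℝ) := by
  have hn' : (0 : ℝ) < n := Nat.cast_pos.2 hn
  set r : ℝ := 1 / n with hr
  have hr0 : 0 < r := one_div_pos.2 hn'
  rcases eq_or_ne (volume A) 0 with hA0 | hA0
  · rw [hA0, ENNReal.zero_rpow_of_pos hr0, zero_add]
    exact ENNReal.rpow_le_rpow (volume_le_add_left hAn) hr0.le
  rcases eq_or_ne (volume B) 0 with hB0 | hB0
  · rw [hB0, ENNReal.zero_rpow_of_pos hr0, add_zero, add_comm A B]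
    exact ENNReal.rpow_le_rpow (volume_le_add_left hBn) hr0.le
  rcases eq_or_ne (volume A) ∞ with hAt | hAt
  · have h := volume_le_add_left (B := A) hBn
    rw [hAt, top_le_iff, add_comm] at h
    rw [h, ENNReal.top_rpow_of_pos hr0]
    exact le_top
  rcases eq_or_ne (volume B) ∞ with hBt | hBt
  · have h := volume_le_add_left (B := B) hAn
    rw [hBt, top_le_iff] at h
    rw [h, ENNReal.top_rpow_of_pos hr0]
    exact le_top
  have root : ∀ S : Set (Fin n → ℝ), volume S ≠ 0 → volume S ≠ ∞ → ∃ a : ℝ, 0 < a ∧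
      volume S ^ r = ENNReal.ofReal a ∧ volume S = ENNReal.ofReal (a ^ n) := by
    intro S h0 ht
    have ht' := ENNReal.rpow_ne_top_of_nonneg hr0.le ht
    have hpos : 0 < (volume S ^ r).toReal :=
      ENNReal.toReal_pos (ENNReal.rpow_pos (pos_iff_ne_zero.2 h0) ht).ne' ht'
    refine ⟨_, hpos, (ENNReal.ofReal_toReal ht').symm, ?_⟩
    rw [ENNReal.ofReal_pow hpos.le, ENNReal.ofReal_toReal ht', ← ENNReal.rpow_natCast,
      ← ENNReal.rpow_mul, hr, one_div_mul_cancel hn'.ne', ENNReal.rpow_one]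
  obtain ⟨a, ha, hAr, hAv⟩ := root A hA0 hAt
  obtain ⟨b, hb, hBr, hBv⟩ := root B hB0 hBt
  have hab : 0 < a + b := add_pos ha hb
  have hfr : Module.finrank ℝ (Fin n → ℝ) = n := Module.finrank_fin_fun ℝ
  have hvol : ∀ (c : ℝ) (S : Set (Fin n → ℝ)), 0 < c →
      volume (c • S) = ENNReal.ofReal (c ^ n) * volume S := fun c S hc => by
    rw [Measure.addHaar_smul, hfr, abs_of_pos (pow_pos hc n)]
  have one : ∀ (c : ℝ) (S : Set (Fin n → ℝ)), 0 < c → volume S = ENNReal.ofReal (c ^ n) →
      volume (c⁻¹ • S) = 1 := fun c S hc hS => by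
    rw [hvol _ _ (inv_pos.2 hc), hS, ← ENNReal.ofReal_mul (by positivity), ← mul_pow,
      inv_mul_cancel₀ hc.ne', one_pow, ENNReal.ofReal_one]
  have key : (1 : ℝ≥0∞) ≤ volume ((a + b)⁻¹ • (A + B)) := by
    have h := volume_geom_mean_le (C := (a + b)⁻¹ • (A + B)) (hA.const_smul₀ a⁻¹)
      (hB.const_smul₀ b⁻¹) (l := b / (a + b)) (div_pos hb hab)
      ((div_lt_one hab).2 (by linarith)) (by
        rintro _ ⟨x, hx, rfl⟩ _ ⟨y, hy, rfl⟩
        refine ⟨x + y, Set.add_mem_add hx hy, ?_⟩
        simp only [smul_add, smul_smul]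
        congr 2 <;> field_simp
        ring)
    rwa [one a A ha hAv, one b B hb hBv, ENNReal.one_rpow, ENNReal.one_rpow, one_mul] at h
  rw [hvol _ _ (inv_pos.2 hab)] at key
  have hle : ENNReal.ofReal ((a + b) ^ n) ≤ volume (A + B) := by
    have h := mul_le_mul_right key (ENNReal.ofReal ((a + b) ^ n))
    rwa [mul_one, ← mul_assoc, ← ENNReal.ofReal_mul (by positivity), ← mul_pow,
      mul_inv_cancel₀ hab.ne', one_pow, ENNReal.ofReal_one, one_mul] at h
  rw [hAr, hBr, ← ENNReal.ofReal_add ha.le hb.le]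
  refine le_trans (le_of_eq ?_) (ENNReal.rpow_le_rpow hle hr0.le)
  rw [ENNReal.ofReal_rpow_of_nonneg (by positivity) hr0.le, hr, one_div,
    Real.pow_rpow_inv_natCast hab.le hn.ne']

/-- **Brunn-Minkowski in Euclidean space.** -/
theorem brunn_minkowski_euclid (hn : 0 < n) {A B : Set (EuclideanSpace ℝ (Fin n))}
    (hA : IsCompact A) (hB : IsCompact B) (hAn : A.Nonempty) (hBn : B.Nonempty) :
    volume A ^ (1 / n : ℝ) + volume B ^ (1 / n : ℝ) ≤ volume (A + B) ^ (1 / n : ℝ) := by
  have hmp := PiLp.volume_preserving_toLp (Fin n)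
  set T : (Fin n → ℝ) → EuclideanSpace ℝ (Fin n) := WithLp.toLp 2
  have hsurj : Function.Surjective T := fun x => ⟨WithLp.ofLp x, rfl⟩
  have hne : ∀ S : Set (EuclideanSpace ℝ (Fin n)), S.Nonempty → (T ⁻¹' S).Nonempty :=
    fun S hS => hS.preimage hsurj
  have hvol : ∀ S : Set (EuclideanSpace ℝ (Fin n)), IsCompact S →
      volume (T ⁻¹' S) = volume S := fun S hS =>
    hmp.measure_preimage hS.measurableSet.nullMeasurableSet
  have hsub : T ⁻¹' A + T ⁻¹' B ⊆ T ⁻¹' (A + B) := by
    rintro _ ⟨x, hx, y, hy, rfl⟩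
    show T (x + y) ∈ A + B
    rw [show T (x + y) = T x + T y from rfl]
    exact Set.add_mem_add hx hy
  have h := brunn_minkowski_pi hn (hmp.measurable hA.measurableSet)
    (hmp.measurable hB.measurableSet) (hne A hAn) (hne B hBn)
  rw [hvol A hA, hvol B hB] at h
  refine h.trans (ENNReal.rpow_le_rpow ((measure_mono hsub).trans (hvol _ (hA.add hB)).le) ?_)
  positivity

end FA.BrunnMinkowski

end
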